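import Fermat.Agent.Mazur.RankZeroFinal
import Fermat.Agent.Mazur.CuspTwo.Main

/-!
# The rank zero elements, unconditionally
-/

set_option autoImplicit false

noncomputable section

namespace Fermat.Agent.Mazur.Assembly

/-- Every prime level outside the exceptional set has a rank zero element. -/
theorem rankZero_all (p : ℕ) [NeZero p] (hp : p.Prime)
    (hp' : p ∉ ({2, 3, 5, 7, 13} : Finset ℕ)) : RankZeroElement p :=
  rankZeroElement_of_cusp hp hp' (cuspClassTwo hp)

end Fermat.Agent.Mazur.Assembly
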