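import Fermat.Agent.Mazur.Frey.FromImmersion
import Fermat.Agent.Mazur.Frey.Wiring
import Fermat.Agent.Mazur.RedInj.Main

/-!
# S12 from the rank zero elements
-/

set_option autoImplicit false
set_option synthInstance.maxHeartbeats 400000

noncomputable section

open WeierstrassCurve WeierstrassCurve.Affine WeierstrassCurve.Affine.Point

namespace Fermat.Agent.Mazur.Assembly

/-- The statement S12, given the rank zero elements. -/
theorem S12_of_rankZero
    (hrk : ∀ (p : ℕ) [NeZero p], p.Prime → p ∉ ({2, 3, 5, 7, 13} : Finset ℕ) → RankZeroElement p)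
    (P : FreyPackage) (hp : 17 ≤ P.p) :
    ¬ HasGaloisStableCofixedLine (K := AlgebraicClosure ℚ) ℚ P.freyCurve P.p := by
  refine Frey.S12_of_core (fun p hpp h17 => Or.inl ?_) P hp
  have : NeZero p := ⟨hpp.ne_zero⟩
  have : Fact (Nat.Prime 3) := ⟨Nat.prime_three⟩
  have hp3 : ¬ 3 ∣ p := fun h => by
    have := (Nat.prime_dvd_prime_iff_eq Nat.prime_three hpp).1 h
    omega
  exact Frey.noStableLineIn_of_rankZero hpp (by norm_num) hp3
    (hrk p hpp (by simp only [Finset.mem_insert, Finset.mem_singleton]; omega))
    (RedInj.fixedTorsionRedInjective Nat.prime_three (by norm_num) hp3)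
    (RedInj.hasReductionData hp3)

end Fermat.Agent.Mazur.Assembly
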