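import Fermat.Agent.Mazur.StepThree
import Fermat.Agent.Mazur.RedInj.Main

/-!
# S15 from the rank zero elements
-/

set_option autoImplicit false
set_option synthInstance.maxHeartbeats 400000

noncomputable section

open WeierstrassCurve WeierstrassCurve.Affine
open scoped WeierstrassCurve.Affine

namespace Fermat.Agent.Mazur.Assembly

/-- The statement S15, given the rank zero elements. -/
theorem S15_of_rankZero
    (hrk : ∀ (p : ℕ) [NeZero p], p.Prime → p ∉ ({2, 3, 5, 7, 13} : Finset ℕ) → RankZeroElement p)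
    {p : ℕ} (hp : p.Prime) (hp' : p ∉ ({2, 3, 5, 7, 13} : Finset ℕ))
    (W : WeierstrassCurve ℤ) (hΔ : W.Δ ≠ 0)
    (Q : ((W.map (Int.castRingHom ℚ))⁄(AlgebraicClosure ℚ)).Point)
    (hQfix : ∀ σ : AlgebraicClosure ℚ ≃ₐ[ℚ] AlgebraicClosure ℚ, σ • Q = Q)
    (hQord : addOrderOf Q = p)
    (_h2Δ : (2 : ℤ) ∣ W.Δ) (_h2c₄ : ¬ (2 : ℤ) ∣ W.c₄)
    (_h2 : ∀ A : ValuationSubring (AlgebraicClosure ℚ), A.LiesOverPrime 2 → ¬ W.InZeroComponentAt A Q)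
    (h3Δ : (3 : ℤ) ∣ W.Δ) (h3c₄ : ¬ (3 : ℤ) ∣ W.c₄)
    (h3 : ∀ A : ValuationSubring (AlgebraicClosure ℚ), A.LiesOverPrime 3 → ¬ W.InZeroComponentAt A Q)
    {ℓ : ℕ} (_hℓ : ℓ.Prime) (_hℓp : ℓ ≠ p) (_hℓΔ : (ℓ : ℤ) ∣ W.Δ) (_hℓc₄ : ¬ (ℓ : ℤ) ∣ W.c₄)
    (A : ValuationSubring (AlgebraicClosure ℚ)) (_hA : A.LiesOverPrime ℓ) :
    ¬ W.InZeroComponentAt A Q := by
  refine (stepThree_of_inputs hp hp' ?_ W hΔ Q hQfix hQord h3Δ h3c₄ h3).elim
  intro _ _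
  have hp3 : ¬ 3 ∣ p := fun h => by
    have := (Nat.prime_dvd_prime_iff_eq Nat.prime_three hp).1 h
    subst this
    exact hp' (by simp)
  exact ⟨hrk p hp hp', RedInj.fixedTorsionRedInjective Nat.prime_three (by norm_num) hp3,
    RedInj.hasReductionData hp3⟩

end Fermat.Agent.Mazur.Assembly
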